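import Fermat.Agent.G1.C.FinDim
import Fermat.Agent.GR.C.Finite

/-!
# G1-C (port of GR-C), piece FIN: `FF1 K N` is finite over `K(j)` (characteristic zero)

The only input is `AlgRel ℂ N` (from G1-A): the generators `e_b(q)/Δ(q^d)` are algebraic over
`ℂ(j)`.  It descends to `ℚ` and extends to every field of characteristic zero.
-/

set_option autoImplicit false
set_option linter.style.haveILetI false
set_option synthInstance.maxHeartbeats 400000

noncomputable section

open ModularCurve AlgebraicCurve IntermediateField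

namespace Fermat.Agent.G1.C

open Fermat.Agent.GR Fermat.Agent.GR.C

/-- INTERFACE (to be proved by G1-A for `K = ℂ`): every generator `e_b(q)/Δ(q^d)` satisfies a
nontrivial polynomial relation with `j`. -/
def AlgRel (K : Type*) [Field K] (N : ℕ) : Prop :=
  ∀ x ∈ eisGens K N, ∃ P : Polynomial (Polynomial K), P ≠ 0 ∧
    Polynomial.eval₂ (Polynomial.eval₂RingHom (algebraMap K (LaurentSeries K)) (jqModC K)) x P = 0

/-- descent of the relations along a field extension. -/
theorem AlgRel.descend {K₁ K₂ : Type} [Field K₁] [Field K₂] (φ : K₁ →+* K₂) {N : ℕ}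
    (h : AlgRel K₂ N) : AlgRel K₁ N := by
  rintro x ⟨d, hd, b, hdN, hb, rfl⟩
  obtain ⟨P, hP0, hP⟩ := h (uB K₂ N d b) ⟨d, hd, b, hdN, hb, rfl⟩
  rw [← coeffMap_jqModC φ, ← coeffMap_uB φ] at hP
  obtain ⟨Q, hQ0, -, hQ⟩ := finite_descend_relation φ (jqModC K₁) (uB K₁ N d b)
    P.natDegree P hP0 le_rfl hP
  exact ⟨Q, hQ0, hQ⟩

/-- base change of the relations. -/
theorem AlgRel.map {K₁ K₂ : Type*} [Field K₁] [Field K₂] (φ : K₁ →+* K₂) {N : ℕ}
    (h : AlgRel K₁ N) : AlgRel K₂ N := by
  rintro x ⟨d, hd, b, hdN, hb, rfl⟩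
  obtain ⟨Q, hQ0, hQ⟩ := h (uB K₁ N d b) ⟨d, hd, b, hdN, hb, rfl⟩
  refine ⟨Q.map (Polynomial.mapRingHom φ), ?_, ?_⟩
  · exact (Polynomial.map_ne_zero_iff (Polynomial.map_injective φ φ.injective)).2 hQ0
  · rw [Polynomial.eval₂_map]
    have h3 := Polynomial.hom_eval₂ Q
      (Polynomial.eval₂RingHom (algebraMap K₁ (LaurentSeries K₁)) (jqModC K₁)) (coeffMap φ)
      (uB K₁ N d b)
    rw [hQ, map_zero, coeffMap_uB] at h3
    have h2 : (coeffMap φ).comp
        (Polynomial.eval₂RingHom (algebraMap K₁ (LaurentSeries K₁)) (jqModC K₁)) =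
        (Polynomial.eval₂RingHom (algebraMap K₂ (LaurentSeries K₂)) (jqModC K₂)).comp
          (Polynomial.mapRingHom φ) := by
      apply Polynomial.ringHom_ext
      · intro c
        simp [coeffMap_algebraMap']
      · simp [coeffMap_jqModC]
    rw [h2] at h3
    exact h3.symm

/-- the relations over one field of characteristic zero give the relations over all of them. -/
theorem AlgRel.of_charZero {K₀ : Type} [Field K₀] [CharZero K₀] {N : ℕ} (h : AlgRel K₀ N)
    (K : Type*) [Field K] [CharZero K] : AlgRel K N :=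
  AlgRel.map (algebraMap ℚ K) (AlgRel.descend (algebraMap ℚ K₀) h)

/-- every generator satisfies a relation with `j`. -/
theorem exists_rel_of_mem_gens1 {K : Type*} [Field K] [CharZero K] {N : ℕ} (h : AlgRel K N)
    {x : LaurentSeries K} (hx : x ∈ gens1 K N) :
    ∃ P : Polynomial (Polynomial K), P ≠ 0 ∧
      Polynomial.eval₂ (Polynomial.eval₂RingHom (algebraMap K (LaurentSeries K)) (jqModC K)) x P
        = 0 := by
  rcases hx with ⟨d, hd, hdN, rfl⟩ | hx
  · exact finite_relation K d
  · exact h x hx

/-- an element satisfying a relation with `j` is algebraic over `K(j)` (inside `K((q))`). -/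
theorem isAlgebraic_of_rel {K : Type*} [Field K] (x : LaurentSeries K)
    (P : Polynomial (Polynomial K)) (hP0 : P ≠ 0)
    (hPev : Polynomial.eval₂
      (Polynomial.eval₂RingHom (algebraMap K (LaurentSeries K)) (jqModC K)) x P = 0) :
    IsAlgebraic ↥(adjoin K {jqModC K}) x := by
  let φ : Polynomial K →+* ↥(adjoin K {jqModC K}) :=
    (Polynomial.aeval (AdjoinSimple.gen K (jqModC K))).toRingHom
  have hφ : Function.Injective φ := by
    have h1 : Transcendental K (AdjoinSimple.gen K (jqModC K)) := by
      rw [← transcendental_algebraMap_iff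
        (algebraMap ↥(adjoin K {jqModC K}) (LaurentSeries K)).injective,
        AdjoinSimple.algebraMap_gen]
      exact finite_transcendental_jqModC K
    exact transcendental_iff_injective.1 h1
  have hQ0 : P.map φ ≠ 0 := (Polynomial.map_ne_zero_iff hφ).2 hP0
  refine ⟨P.map φ, hQ0, ?_⟩
  rw [Polynomial.aeval_def, Polynomial.eval₂_map]
  have h2 : (algebraMap ↥(adjoin K {jqModC K}) (LaurentSeries K)).comp φ =
      Polynomial.eval₂RingHom (algebraMap K (LaurentSeries K)) (jqModC K) := by
    apply Polynomial.ringHom_ext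
    · intro c
      simp [φ]
    · have h4 : φ Polynomial.X = AdjoinSimple.gen K (jqModC K) := Polynomial.aeval_X _
      rw [RingHom.comp_apply, h4, AdjoinSimple.algebraMap_gen, Polynomial.coe_eval₂RingHom,
        Polynomial.eval₂_X]
  rw [h2]
  exact hPev

set_option maxHeartbeats 2000000 in
/-- an element of `FF1 K N` satisfying a relation with `j` is algebraic over `K(j)` (inside
`FF1 K N`). -/
theorem isAlgebraic_of_rel' {K : Type*} [Field K] (N : ℕ) (x : FF1 K N)
    (P : Polynomial (Polynomial K)) (hP0 : P ≠ 0)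
    (hPev : Polynomial.eval₂
      (Polynomial.eval₂RingHom (algebraMap K (LaurentSeries K)) (jqModC K))
        (x : LaurentSeries K) P = 0) :
    IsAlgebraic ↥(adjoin K {jF K N}) x := by
  let φ : Polynomial K →+* ↥(adjoin K {jF K N}) :=
    (Polynomial.aeval (AdjoinSimple.gen K (jF K N))).toRingHom
  have hφ : Function.Injective φ := by
    have h1 : Transcendental K (AdjoinSimple.gen K (jF K N)) := by
      rw [← transcendental_algebraMap_iff
        (algebraMap ↥(adjoin K {jF K N}) (FF1 K N)).injective,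
        AdjoinSimple.algebraMap_gen]
      exact transcendental_jF K N
    exact transcendental_iff_injective.1 h1
  have hQ0 : P.map φ ≠ 0 := (Polynomial.map_ne_zero_iff hφ).2 hP0
  refine ⟨P.map φ, hQ0, ?_⟩
  rw [Polynomial.aeval_def, Polynomial.eval₂_map]
  have h3 := Polynomial.hom_eval₂ P ((algebraMap ↥(adjoin K {jF K N}) (FF1 K N)).comp φ)
    ((FF1 K N).val : FF1 K N →+* LaurentSeries K) x
  have h2 : ((FF1 K N).val : FF1 K N →+* LaurentSeries K).comp
      ((algebraMap ↥(adjoin K {jF K N}) (FF1 K N)).comp φ) =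
      Polynomial.eval₂RingHom (algebraMap K (LaurentSeries K)) (jqModC K) := by
    apply Polynomial.ringHom_ext
    · intro c
      simp [φ]
    · have h4 : φ Polynomial.X = AdjoinSimple.gen K (jF K N) := by
        change Polynomial.aeval (AdjoinSimple.gen K (jF K N)) Polynomial.X = _
        rw [Polynomial.aeval_X]
      have h5 : (algebraMap ↥(adjoin K {jF K N}) (FF1 K N)) (φ Polynomial.X) = jF K N := by
        rw [h4]
        exact AdjoinSimple.algebraMap_gen K (jF K N)
      rw [RingHom.comp_apply, RingHom.comp_apply, h5, Polynomial.coe_eval₂RingHom,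
        Polynomial.eval₂_X]
      rfl
  rw [h2] at h3
  apply Subtype.ext
  refine h3.trans ?_
  exact hPev

/-- uniform bound for the degree over `K(j)` of the elements of the function field. -/
theorem exists_natDegree_minpoly_le (K : Type*) [Field K] [CharZero K] (N : ℕ) [NeZero N]
    (h : AlgRel K N) :
    ∃ μ : ℕ, ∀ y ∈ FF1 K N, IsIntegral ↥(adjoin K {jqModC K}) y ∧
      (minpoly ↥(adjoin K {jqModC K}) y).natDegree ≤ μ := by
  let E : IntermediateField ↥(adjoin K {jqModC K}) (LaurentSeries K) :=
    adjoin ↥(adjoin K {jqModC K}) (gens1 K N)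
  haveI : Finite (gens1 K N) := (finite_gens1 K N).to_subtype
  haveI : FiniteDimensional ↥(adjoin K {jqModC K}) E := by
    apply IntermediateField.finiteDimensional_adjoin
    intro x hx
    obtain ⟨P, hP0, hP⟩ := exists_rel_of_mem_gens1 h hx
    exact (isAlgebraic_of_rel x P hP0 hP).isIntegral
  have hle : FF1 K N ≤ E.restrictScalars K := by
    change adjoin K (gens1 K N) ≤ _
    rw [adjoin_le_iff]
    intro x hx
    exact subset_adjoin ↥(adjoin K {jqModC K}) _ hx
  refine ⟨Module.finrank ↥(adjoin K {jqModC K}) E, fun y hy => ?_⟩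
  have hyE : y ∈ E := hle hy
  have hint : IsIntegral ↥(adjoin K {jqModC K}) (⟨y, hyE⟩ : E) := IsIntegral.of_finite _ _
  refine ⟨(IntermediateField.isIntegral_iff (x := (⟨y, hyE⟩ : E))).1 hint, ?_⟩
  rw [← IntermediateField.minpoly_eq (⟨y, hyE⟩ : E)]
  haveI : Module.Free ↥(adjoin K {jqModC K}) E := Module.Free.of_divisionRing _ _
  exact minpoly.natDegree_le _

set_option maxHeartbeats 1000000 in
/-- `FF1 K N` is finite over `K(j)`. -/
theorem finiteDimensional_FF (K : Type*) [Field K] [CharZero K] (N : ℕ) [NeZero N]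
    (h : AlgRel K N) :
    FiniteDimensional (IntermediateField.adjoin K {jF K N}) (FF1 K N) := by
  set E := IntermediateField.adjoin K {jF K N} with hE
  set S : Set (FF1 K N) := {x | (x : LaurentSeries K) ∈ gens1 K N} with hS
  have hfinS : Finite S :=
    ((finite_gens1 K N).preimage (Subtype.val_injective.injOn)).to_subtype
  have hint : ∀ x ∈ S, IsIntegral E x := by
    intro x hx
    obtain ⟨P, hP0, hP⟩ := exists_rel_of_mem_gens1 h hx
    exact (isAlgebraic_of_rel' N x P hP0 hP).isIntegral
  have hfd : FiniteDimensional E (IntermediateField.adjoin E S) :=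
    IntermediateField.finiteDimensional_adjoin hint
  have htop : IntermediateField.adjoin E S = ⊤ := by
    rw [eq_top_iff]
    rintro ⟨u, hu⟩ -
    induction hu using IntermediateField.adjoin_induction with
    | mem x hx =>
      exact IntermediateField.subset_adjoin _ _ hx
    | algebraMap a =>
      exact IntermediateField.algebraMap_mem _ (algebraMap K E a)
    | add x y hx' hy' hx hy =>
      have h1 : (⟨x + y, add_mem hx' hy'⟩ : FF1 K N) = ⟨x, hx'⟩ + ⟨y, hy'⟩ :=
        Subtype.ext (by rw [IntermediateField.coe_add])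
      rw [h1]
      exact add_mem hx hy
    | inv x hx' hx =>
      have h1 : (⟨x⁻¹, inv_mem hx'⟩ : FF1 K N) = (⟨x, hx'⟩ : FF1 K N)⁻¹ :=
        Subtype.ext (by rw [IntermediateField.coe_inv])
      rw [h1]
      exact inv_mem hx
    | mul x y hx' hy' hx hy =>
      have h1 : (⟨x * y, mul_mem hx' hy'⟩ : FF1 K N) = ⟨x, hx'⟩ * ⟨y, hy'⟩ :=
        Subtype.ext (by rw [IntermediateField.coe_mul])
      rw [h1]
      exact mul_mem hx hy
  rw [htop] at hfd
  exact Module.Finite.equiv (IntermediateField.topEquiv (F := E) (E := FF1 K N)).toLinearEquiv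

end Fermat.Agent.G1.C
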