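import Fermat.Agent.G1.C.LinDisj
import Fermat.Agent.GR.C.Root
import Fermat.Agent.Lib.AutExt

/-!
# GR-C: RT-1..3, descent of `n`-th roots
-/

set_option autoImplicit false

noncomputable section

open ModularCurve AlgebraicCurve IntermediateField

namespace Fermat.Agent.G1.C

open Fermat.Agent.GR Fermat.Agent.GR.C

variable {K Ω : Type} [Field K] [Field Ω] [Algebra K Ω]

/-- RT-3. -/
theorem kummerEquiv_down [IsAlgClosed K] [CharZero K] [IsAlgClosed Ω] {N n : ℕ} (hn : 0 < n)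
    {u₀ u₁ : LaurentSeries K}
    (h : KummerEquiv1 N n (coeffMap (algebraMap K Ω) u₀) (coeffMap (algebraMap K Ω) u₁)) :
    KummerEquiv1 N n u₀ u₁ := by
  obtain ⟨z, hz, hz0, hzu⟩ := h
  have hinj := coeffMap_injective (algebraMap K Ω)
  rcases eq_or_ne u₀ 0 with rfl | hu0
  · refine ⟨1, one_mem _, one_ne_zero, ?_⟩
    rw [map_zero, zero_mul] at hzu
    rw [zero_mul]
    exact hinj (by rw [hzu, map_zero])
  · have hu0' : coeffMap (algebraMap K Ω) u₀ ≠ 0 := by
      rw [Ne, map_eq_zero_iff _ hinj]; exact hu0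
    have h1 : z ^ n = coeffMap (algebraMap K Ω) (u₁ / u₀) := by
      rw [map_div₀, hzu, mul_div_cancel_left₀ _ hu0']
    obtain ⟨z₀, rfl⟩ := exists_coeffMap_eq_of_pow hn z _ h1
    refine ⟨z₀, mem_FF_of_coeffMap_mem hz, ?_, ?_⟩
    · rintro rfl
      exact hz0 (map_zero _)
    · apply hinj
      rw [hzu, map_mul, map_pow]

end Fermat.Agent.G1.C
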