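import Fermat.Agent.G1.C.Extend
import Fermat.Agent.G1.C.Root
import Fermat.Agent.G1.C.FinDim
import Fermat.Agent.G1.C.Open
import Fermat.Agent.GR.C.Can3
import Fermat.Agent.GR.C.Can4
import Fermat.Agent.GR.C.Can5
import Fermat.Agent.GR.C.Place1
import Fermat.Agent.GR.C.Place2
import Fermat.Agent.GR.C.Conj
import Fermat.Agent.S24.FormalEmb

/-!
# G1-C (port of GR-C): main results (descent of Kummer classes from `Ω` to `K`)
-/

set_option autoImplicit false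

noncomputable section

open ModularCurve AlgebraicCurve IntermediateField

namespace Fermat.Agent.G1.C

open Fermat.Agent.GR Fermat.Agent.GR.C

variable {K Ω : Type} [Field K] [Field Ω] [Algebra K Ω]

/-- M1: the Kummer condition goes up. -/
theorem isKummer_up {N n : ℕ} {u₀ : LaurentSeries K} (h : IsKummer1 (M := N) n u₀) :
    IsKummer1 (M := N) n (coeffMap (algebraMap K Ω) u₀) := by
  obtain ⟨h0, hmem, hord⟩ := h
  refine ⟨(map_ne_zero _).2 h0, coeffMap_mem_FF N _ hmem, fun v' => ?_⟩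
  have key := exists_restrict_place (bc N (algebraMap K Ω))
    (fun a => ⟨algebraMap K Ω a, bc_algebraMap N _ a⟩) v'
  have e : (⟨coeffMap (algebraMap K Ω) u₀, coeffMap_mem_FF N _ hmem⟩ : FF1 Ω N) =
      bc N (algebraMap K Ω) ⟨u₀, hmem⟩ := rfl
  rw [e]
  rcases key with h1 | ⟨v, e', h1⟩
  · rw [h1]; exact dvd_zero _
  · rw [h1]; exact Dvd.dvd.mul_left (hord v) _

/-- M2: the Kummer condition goes down. -/
theorem isKummer_down [IsAlgClosed K] [CharZero K] {N n : ℕ}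
    (hK : FiniteDimensional (IntermediateField.adjoin K {jF K N}) (FF1 K N))
    {u₀ : LaurentSeries K} (h : IsKummer1 (M := N) n (coeffMap (algebraMap K Ω) u₀)) :
    IsKummer1 (M := N) n u₀ := by
  obtain ⟨h0, hmem, hord⟩ := h
  have hmem₀ : u₀ ∈ FF1 K N := mem_FF_of_coeffMap_mem' N u₀ hmem
  refine ⟨fun h => h0 (by rw [h, map_zero]), hmem₀, fun v => ?_⟩
  obtain ⟨φ, hφC, hφ⟩ := Fermat.Agent.S24.exists_formal_embedding v
    (Fermat.Agent.S24.Zeros.residueField_bijective (transcendental_jF K N) hK v).2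
  obtain ⟨φ', hφ'C, hφ'⟩ := exists_extend_hom_FF (Ω := Ω) N φ hφC
  obtain ⟨π, hπ⟩ := IsDiscreteValuationRing.exists_irreducible v.toValuationSubring
  have hπ0 : (π : FF1 K N) ≠ 0 := by
    simpa [ne_eq, ZeroMemClass.coe_eq_zero] using hπ.ne_zero
  have hπ1 : (φ' (bc N (algebraMap K Ω) (π : FF1 K N))).order = 1 := by
    rw [hφ', coeffMap_order, hφ _ hπ0, v.ord_coe_irreducible hπ]
  obtain ⟨v', hv'⟩ := exists_place_of_hom φ' hφ'C _ hπ1
  have hu0 : (⟨u₀, hmem₀⟩ : FF1 K N) ≠ 0 := by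
    intro h
    apply h0
    have := congrArg (fun f : FF1 K N => (f : LaurentSeries K)) h
    simp only [ZeroMemClass.coe_zero] at this
    rw [this, map_zero]
  have h1 := hord v'
  have e : (⟨coeffMap (algebraMap K Ω) u₀, hmem⟩ : FF1 Ω N) =
      bc N (algebraMap K Ω) ⟨u₀, hmem₀⟩ := rfl
  rw [e, hv', hφ', coeffMap_order, hφ _ hu0] at h1
  exact h1

theorem isKummer_of_kummerEquiv {k : Type*} [Field k] {N n : ℕ} {u u' : LaurentSeries k}
    (hu : IsKummer1 (M := N) n u) (h : KummerEquiv1 N n u u') : IsKummer1 (M := N) n u' := by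
  obtain ⟨h0, hmem, hord⟩ := hu
  obtain ⟨z, hz, hz0, rfl⟩ := h
  refine ⟨mul_ne_zero h0 (pow_ne_zero _ hz0), mul_mem hmem (pow_mem hz n), fun v => ?_⟩
  have e : (⟨u * z ^ n, mul_mem hmem (pow_mem hz n)⟩ : FF1 k N) =
      (⟨u, hmem⟩ : FF1 k N) * (⟨z, hz⟩ : FF1 k N) ^ n := rfl
  have hu0 : (⟨u, hmem⟩ : FF1 k N) ≠ 0 := fun h => h0 (congrArg Subtype.val h)
  have hz0' : (⟨z, hz⟩ : FF1 k N) ≠ 0 := fun h => hz0 (congrArg Subtype.val h)
  have hp := v.ord_zpow (⟨z, hz⟩ : FF1 k N) (n : ℤ)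
  rw [zpow_natCast] at hp
  rw [e, v.ord_mul hu0 (pow_ne_zero _ hz0'), hp]
  exact dvd_add (hord v) (dvd_mul_right _ _)

theorem baseAut_ffAut {k : Type*} [Field k] (N : ℕ) (σ : k ≃+* k) :
    SemilinearAut.baseAut (ffAut N σ) = σ := rfl

theorem isCan_ffAut {N n : ℕ} {u w : FF1 Ω N} (h : IsCan (jF Ω N) n u w) (σ : Ω ≃+* Ω) :
    IsCan (jF Ω N) n (bc N (σ : Ω →+* Ω) u) (bc N (σ : Ω →+* Ω) w) := by
  have := h.smul (Fermat.Agent.G1.C.ffAut N σ) (ffAut_smul_jF N σ) (fun f k => by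
    rw [coe_ffAut_smul, coeffMap_coeff, baseAut_ffAut]
    rfl)
  rwa [ffAut_smul, ffAut_smul] at this

/-- M4: descent of Kummer classes. `hS` = finiteness of the Kummer group over `Ω` (from GR-A). -/
theorem exists_descent [IsAlgClosed K] [CharZero K] [IsAlgClosed Ω] {N n : ℕ} (hn : 0 < n)
    (hK : FiniteDimensional (IntermediateField.adjoin K {jF K N}) (FF1 K N))
    (S : Set (LaurentSeries Ω)) (hSfin : S.Finite)
    (hS : ∀ u : LaurentSeries Ω, IsKummer1 (M := N) n u → ∃ s ∈ S, KummerEquiv1 N n s u)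
    {u : LaurentSeries Ω} (hu : IsKummer1 (M := N) n u) :
    ∃ u₀ : LaurentSeries K, IsKummer1 (M := N) n u₀ ∧
      KummerEquiv1 N n u (coeffMap (algebraMap K Ω) u₀) := by
  classical
  have : CharZero Ω := charZero_of_injective_algebraMap (algebraMap K Ω).injective
  have hx := transcendental_jF Ω N
  have hΩ := finiteDimensional_FF_of (Ω := Ω) N hK
  obtain ⟨vinf, hvinf⟩ := exists_infPlace (order_jF Ω N)
  obtain ⟨hu0, hmem, hord⟩ := id hu
  have hU0 : (⟨u, hmem⟩ : FF1 Ω N) ≠ 0 := fun h => hu0 (congrArg Subtype.val h)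
  obtain ⟨w, hw⟩ := exists_isCan hx hΩ vinf hvinf hn hU0
  -- the finite set of canonical representatives
  let P : LaurentSeries Ω → LaurentSeries Ω → Prop := fun s t =>
    ∃ (hs : s ∈ FF1 Ω N) (w' : FF1 Ω N), IsCan (jF Ω N) n ⟨s, hs⟩ w' ∧ (w' : LaurentSeries Ω) = t
  let g : LaurentSeries Ω → LaurentSeries Ω := fun s => if h : ∃ t, P s t then h.choose else 0
  have hPuniq : ∀ s t t', P s t → P s t' → t = t' := by
    rintro s t t' ⟨hs, w₁, h₁, rfl⟩ ⟨_, w₂, h₂, rfl⟩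
    have hs0 : (⟨s, hs⟩ : FF1 Ω N) ≠ 0 := by
      intro h0
      obtain ⟨z, _, hz⟩ := h₁.mem
      rw [h0, zero_mul] at hz
      have := h₁.lead
      rw [hz] at this
      simp at this
    rw [h₁.unique hn hs0 h₂]
  have hg : ∀ s t, P s t → g s = t := by
    intro s t hst
    have h : ∃ t, P s t := ⟨t, hst⟩
    simp only [g, dif_pos h]
    exact hPuniq s _ _ h.choose_spec hst
  have horbit : ∀ σ : Ω ≃ₐ[K] Ω, coeffMap (σ : Ω →+* Ω) (w : LaurentSeries Ω) ∈ g '' S := by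
    intro σ
    have hσ := isCan_ffAut hw σ.toRingEquiv
    obtain ⟨s, hsS, z, hz, hz0, hsz⟩ := hS _ (isKummer_coeffMap_ringEquiv hu σ.toRingEquiv)
    have hσu : coeffMap ((σ.toRingEquiv : Ω ≃+* Ω) : Ω →+* Ω) u ∈ FF1 Ω N :=
      coeffMap_mem_FF N _ hmem
    have hs_eq : s = coeffMap ((σ.toRingEquiv : Ω ≃+* Ω) : Ω →+* Ω) u * (z⁻¹) ^ n := by
      rw [hsz, inv_pow, mul_assoc, mul_inv_cancel₀ (pow_ne_zero _ hz0), mul_one]
    have hs : s ∈ FF1 Ω N := by
      rw [hs_eq]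
      exact mul_mem hσu (pow_mem (inv_mem hz) n)
    have hcls : (⟨s, hs⟩ : FF1 Ω N) ∈
        Cls n (bc N ((σ.toRingEquiv : Ω ≃+* Ω) : Ω →+* Ω) (⟨u, hmem⟩ : FF1 Ω N)) := by
      refine ⟨⟨z⁻¹, inv_mem hz⟩, ?_, Subtype.ext ?_⟩
      · intro h
        exact inv_ne_zero hz0 (congrArg Subtype.val h)
      · exact hs_eq
    have hP : P s (coeffMap ((σ.toRingEquiv : Ω ≃+* Ω) : Ω →+* Ω) (w : LaurentSeries Ω)) :=
      ⟨hs, _, hσ.congr hcls, coe_bc N _ w⟩
    exact ⟨s, hsS, hg s _ hP⟩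
  obtain ⟨w₀, hw₀⟩ := exists_coeffMap_eq_of_finite_orbit (K := K) (w : LaurentSeries Ω)
    ((hSfin.image g).subset (by rintro _ ⟨σ, rfl⟩; exact horbit σ))
  have hequiv : KummerEquiv1 N n u (coeffMap (algebraMap K Ω) w₀) := by
    obtain ⟨z, hz0, hz⟩ := hw.mem
    refine ⟨z, z.2, fun h => hz0 (Subtype.ext h), ?_⟩
    rw [hw₀, hz]
    rfl
  exact ⟨w₀, isKummer_down hK (isKummer_of_kummerEquiv hu hequiv), hequiv⟩

end Fermat.Agent.G1.C
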