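import Fermat.Agent.G1.Defs
import Fermat.Agent.GR.C.Basic

/-!
# G1-C: basic definitions (base change of the function field `FF1`, semilinear automorphisms)

Textual port of `GR/C/Basic.lean` (`FF K N` replaced by `FF1 K N`).  The generic lemmas of `GR/C`
(`coeffMap_algebraMap'`, `coeffMap_injective`, `coeffMap_order`, ...) are reused from there.
-/

set_option autoImplicit false

noncomputable section

open ModularCurve AlgebraicCurve IntermediateField

namespace Fermat.Agent.G1.C

open Fermat.Agent.GR Fermat.Agent.GR.C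

section

variable {K K' K'' : Type*} [Field K] [Field K'] [Field K'']

variable (N : ℕ)

variable (K) in
/-- The generators of `FF1 K N`. -/
def gens1 : Set (LaurentSeries K) := divisorExpansionsC K N ∪ eisGens K N

variable (K) in
theorem FF1_eq_adjoin : FF1 K N = IntermediateField.adjoin K (gens1 K N) := rfl

variable {N} in
theorem mem_FF1_of_mem_gens1 {x : LaurentSeries K} (hx : x ∈ gens1 K N) : x ∈ FF1 K N :=
  IntermediateField.subset_adjoin K _ hx

variable {N} in
theorem coeffMap_mem_gens1 (φ : K →+* K') {x : LaurentSeries K} (hx : x ∈ gens1 K N) :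
    coeffMap φ x ∈ gens1 K' N := by
  rcases hx with ⟨d, hd, hdN, rfl⟩ | ⟨d, hd, b, hdN, hb, rfl⟩
  · exact Or.inl ⟨d, hd, hdN, by rw [coeffMap_qExpand, coeffMap_jqModC]⟩
  · exact Or.inr ⟨d, hd, b, hdN, hb, coeffMap_uB φ N d b⟩

variable {N} in
theorem exists_coeffMap_eq_of_mem_gens1 (φ : K →+* K') {y : LaurentSeries K'}
    (hy : y ∈ gens1 K' N) : ∃ x ∈ gens1 K N, coeffMap φ x = y := by
  rcases hy with ⟨d, hd, hdN, rfl⟩ | ⟨d, hd, b, hdN, hb, rfl⟩
  · exact ⟨_, Or.inl ⟨d, hd, hdN, rfl⟩, by rw [coeffMap_qExpand, coeffMap_jqModC]⟩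
  · exact ⟨_, Or.inr ⟨d, hd, b, hdN, hb, rfl⟩, coeffMap_uB φ N d b⟩

variable {N} in
/-- the generators have rational (integral) coefficients. -/
theorem coeffMap_eq_self_of_mem_gens1 (σ : K →+* K) {x : LaurentSeries K} (hx : x ∈ gens1 K N) :
    coeffMap σ x = x := by
  rcases hx with ⟨d, hd, hdN, rfl⟩ | ⟨d, hd, b, hdN, hb, rfl⟩
  · rw [coeffMap_qExpand, coeffMap_jqModC]
  · exact coeffMap_uB σ N d b

theorem image_gens1 (φ : K →+* K') : ⇑(coeffMap φ) '' gens1 K N = gens1 K' N := by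
  ext y
  constructor
  · rintro ⟨x, hx, rfl⟩
    exact coeffMap_mem_gens1 φ hx
  · intro hy
    exact exists_coeffMap_eq_of_mem_gens1 φ hy

variable (K) in
theorem finite_gens1 [NeZero N] : (gens1 K N).Finite := by
  classical
  apply Set.Finite.union
  · let f : ℕ → LaurentSeries K := fun d =>
      if h : d = 0 then 0 else (haveI : NeZero d := ⟨h⟩; qExpand K d (jqModC K))
    refine Set.Finite.subset ((N.divisors : Set ℕ).toFinite.image f) ?_
    rintro x ⟨d, hd, hdN, rfl⟩
    refine ⟨d, ?_, ?_⟩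
    · simpa using ⟨hdN, NeZero.ne N⟩
    · simp only [f]
      rw [dif_neg (NeZero.ne d)]
  · let f : ℕ × ZMod N → LaurentSeries K := fun p =>
      if h : p.1 = 0 then 0 else (haveI : NeZero p.1 := ⟨h⟩; uB K N p.1 p.2)
    refine Set.Finite.subset
      (((N.divisors : Set ℕ) ×ˢ (Set.univ : Set (ZMod N))).toFinite.image f) ?_
    rintro x ⟨d, hd, b, hdN, hb, rfl⟩
    refine ⟨(d, b), ?_, ?_⟩
    · simpa using ⟨hdN, NeZero.ne N⟩
    · simp only [f]
      rw [dif_neg (NeZero.ne d)]

theorem coeffMap_mem_FF (φ : K →+* K') {f : LaurentSeries K} (hf : f ∈ FF1 K N) :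
    coeffMap φ f ∈ FF1 K' N := by
  rw [FF1_eq_adjoin] at hf
  induction hf using IntermediateField.adjoin_induction with
  | mem x hx => exact mem_FF1_of_mem_gens1 (coeffMap_mem_gens1 φ hx)
  | algebraMap a =>
      rw [coeffMap_algebraMap']
      exact (FF1 K' N).algebraMap_mem _
  | add x y _ _ hx hy => rw [map_add]; exact add_mem hx hy
  | inv x _ hx => rw [map_inv₀]; exact inv_mem hx
  | mul x y _ _ hx hy => rw [map_mul]; exact mul_mem hx hy

/-- Base change of the function field along a field homomorphism. -/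
def bc (φ : K →+* K') : FF1 K N →+* FF1 K' N where
  toFun f := ⟨coeffMap φ (f : LaurentSeries K), coeffMap_mem_FF N φ f.2⟩
  map_one' := Subtype.ext (map_one (coeffMap φ))
  map_mul' _ _ := Subtype.ext (map_mul (coeffMap φ) _ _)
  map_zero' := Subtype.ext (map_zero (coeffMap φ))
  map_add' _ _ := Subtype.ext (map_add (coeffMap φ) _ _)

@[simp] theorem coe_bc (φ : K →+* K') (f : FF1 K N) :
    ((bc N φ f : FF1 K' N) : LaurentSeries K') = coeffMap φ (f : LaurentSeries K) := rfl

theorem bc_algebraMap (φ : K →+* K') (a : K) :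
    bc N φ (algebraMap K (FF1 K N) a) = algebraMap K' (FF1 K' N) (φ a) :=
  Subtype.ext (coeffMap_algebraMap' φ a)

theorem bc_bc (ψ : K' →+* K'') (φ : K →+* K') (f : FF1 K N) :
    bc N ψ (bc N φ f) = bc N (ψ.comp φ) f :=
  Subtype.ext (coeffMap_coeffMap ψ φ _)

theorem bc_id (f : FF1 K N) : bc N (RingHom.id K) f = f :=
  Subtype.ext (coeffMap_id _)

variable (K) in
theorem jqModC_mem_FF1 : jqModC K ∈ FF1 K N := FF_le_FF1 K N (jqModC_mem_full K N)

variable (K) in
/-- The function `j`. -/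
def jF : FF1 K N := ⟨jqModC K, jqModC_mem_FF1 K N⟩

@[simp] theorem coe_jF : ((jF K N : FF1 K N) : LaurentSeries K) = jqModC K := rfl

theorem bc_jF (φ : K →+* K') : bc N φ (jF K N) = jF K' N :=
  Subtype.ext (coeffMap_jqModC φ)

/-- The ring automorphism of the function field induced by an automorphism of the constants. -/
def ffRingAut (σ : K ≃+* K) : FF1 K N ≃+* FF1 K N where
  toFun := bc N (σ : K →+* K)
  invFun := bc N (σ.symm : K →+* K)
  left_inv f := by
    rw [bc_bc]
    have : (σ.symm : K →+* K).comp (σ : K →+* K) = RingHom.id K :=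
      RingHom.ext fun a => σ.symm_apply_apply a
    rw [this, bc_id]
  right_inv f := by
    rw [bc_bc]
    have : (σ : K →+* K).comp (σ.symm : K →+* K) = RingHom.id K :=
      RingHom.ext fun a => σ.apply_symm_apply a
    rw [this, bc_id]
  map_mul' := map_mul _
  map_add' := map_add _

/-- The semilinear automorphism of the function field induced by an automorphism of the
constants. -/
def ffAut : (K ≃+* K) →* SemilinearAut K (FF1 K N) where
  toFun σ := ⟨(ffRingAut N σ, σ), fun a => bc_algebraMap N (σ : K →+* K) a⟩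
  map_one' := by
    refine Subtype.ext (Prod.ext (RingEquiv.ext fun f => ?_) rfl)
    exact bc_id N f
  map_mul' σ τ := by
    refine Subtype.ext (Prod.ext (RingEquiv.ext fun f => ?_) rfl)
    exact (bc_bc N (σ : K →+* K) (τ : K →+* K) f).symm

theorem ffAut_smul (σ : K ≃+* K) (f : FF1 K N) : ffAut N σ • f = bc N (σ : K →+* K) f := rfl

theorem coe_ffAut_smul (σ : K ≃+* K) (f : FF1 K N) :
    ((ffAut N σ • f : FF1 K N) : LaurentSeries K) = coeffMap (σ : K →+* K) f := rfl

theorem ffAut_smul_jF (σ : K ≃+* K) : ffAut N σ • jF K N = jF K N := bc_jF N _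

/-- Automorphisms of the constants preserve the Kummer condition. -/
theorem isKummer_coeffMap_ringEquiv {N n : ℕ} {u : LaurentSeries K} (hu : IsKummer1 (M := N) n u)
    (σ : K ≃+* K) : IsKummer1 (M := N) n (coeffMap (σ : K →+* K) u) := by
  obtain ⟨h0, hmem, hord⟩ := hu
  refine ⟨(map_ne_zero _).2 h0, coeffMap_mem_FF N _ hmem, fun v => ?_⟩
  have h := SemilinearAut.ord_smul (ffAut N σ) ((ffAut N σ)⁻¹ • v) (⟨u, hmem⟩ : FF1 K N)
  rw [smul_inv_smul] at h
  have h2 : (⟨coeffMap (σ : K →+* K) u, coeffMap_mem_FF N _ hmem⟩ : FF1 K N) =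
      ffAut N σ • (⟨u, hmem⟩ : FF1 K N) := rfl
  rw [h2, h]
  exact hord _

theorem kummerEquiv_coeffMap {N n : ℕ} {u u' : LaurentSeries K} (h : KummerEquiv1 N n u u')
    (φ : K →+* K') : KummerEquiv1 N n (coeffMap φ u) (coeffMap φ u') := by
  obtain ⟨z, hz, hz0, rfl⟩ := h
  exact ⟨_, coeffMap_mem_FF N φ hz, (map_ne_zero _).2 hz0, by rw [map_mul, map_pow]⟩

theorem kummerEquiv_refl (N n : ℕ) (u : LaurentSeries K) : KummerEquiv1 N n u u :=
  ⟨1, one_mem _, one_ne_zero, by simp⟩

theorem kummerEquiv_symm {N n : ℕ} {u u' : LaurentSeries K} (h : KummerEquiv1 N n u u') :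
    KummerEquiv1 N n u' u := by
  obtain ⟨z, hz, hz0, rfl⟩ := h
  refine ⟨z⁻¹, inv_mem hz, inv_ne_zero hz0, ?_⟩
  rw [inv_pow, mul_assoc, mul_inv_cancel₀ (pow_ne_zero _ hz0), mul_one]

theorem kummerEquiv_trans {N n : ℕ} {u u' u'' : LaurentSeries K} (h : KummerEquiv1 N n u u')
    (h' : KummerEquiv1 N n u' u'') : KummerEquiv1 N n u u'' := by
  obtain ⟨z, hz, hz0, rfl⟩ := h
  obtain ⟨z', hz', hz0', rfl⟩ := h'
  exact ⟨z * z', mul_mem hz hz', mul_ne_zero hz0 hz0', by rw [mul_pow, mul_assoc]⟩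

end

end Fermat.Agent.G1.C
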