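import Fermat.Agent.G1.C.Extend

/-!
# G1-C: descent and base change of the diamond automorphisms

* `FF1_induction`, `ringHom_ext_FF1`: induction on the generators of `FF1 K N`.
* `Diamond_unique/refl/symm/trans`, `isDiamond_of_gens` (see also `G1/Diamond.lean`).
* `IsDiamond.bc_comm`: diamonds commute with base change (in particular with the Galois action on
  the coefficients: `IsDiamond.coeffMap_comm`).
* `DiamondExists.descend`, `DiamondExists.extend`, `DiamondExists.of_charZero`: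
  `DiamondExists ℂ N → DiamondExists K N` for every field `K : Type` of characteristic zero.
-/

set_option autoImplicit false
set_option synthInstance.maxHeartbeats 400000

noncomputable section

open ModularCurve AlgebraicCurve IntermediateField

namespace Fermat.Agent.G1.C

open Fermat.Agent.GR Fermat.Agent.GR.C

section General

variable {K Ω : Type*} [Field K] [Field Ω] {N : ℕ}

/-- induction on the generators of `FF1 K N`. -/
theorem FF1_induction {p : FF1 K N → Prop}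
    (gen : ∀ x (hx : x ∈ gens1 K N), p ⟨x, mem_FF1_of_mem_gens1 hx⟩)
    (alg : ∀ a : K, p (algebraMap K (FF1 K N) a))
    (add : ∀ x y, p x → p y → p (x + y))
    (inv : ∀ x, p x → p x⁻¹)
    (mul : ∀ x y, p x → p y → p (x * y)) (x : FF1 K N) : p x := by
  obtain ⟨u, hu⟩ := x
  induction hu using IntermediateField.adjoin_induction with
  | mem x hx => exact gen x hx
  | algebraMap a => exact alg a
  | add x y hx' hy' hx hy =>
    have h1 : (⟨x + y, add_mem hx' hy'⟩ : FF1 K N) = ⟨x, hx'⟩ + ⟨y, hy'⟩ :=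
      Subtype.ext (by rw [IntermediateField.coe_add])
    rw [h1]
    exact add _ _ hx hy
  | inv x hx' hx =>
    have h1 : (⟨x⁻¹, inv_mem hx'⟩ : FF1 K N) = (⟨x, hx'⟩ : FF1 K N)⁻¹ :=
      Subtype.ext (by rw [IntermediateField.coe_inv])
    rw [h1]
    exact inv _ hx
  | mul x y hx' hy' hx hy =>
    have h1 : (⟨x * y, mul_mem hx' hy'⟩ : FF1 K N) = ⟨x, hx'⟩ * ⟨y, hy'⟩ :=
      Subtype.ext (by rw [IntermediateField.coe_mul])
    rw [h1]
    exact mul _ _ hx hy

/-- two ring homomorphisms which agree on the constants and on the generators are equal. -/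
theorem ringHom_ext_FF1 {R : Type*} [DivisionRing R] {f g : FF1 K N →+* R}
    (hC : ∀ a : K, f (algebraMap K (FF1 K N) a) = g (algebraMap K (FF1 K N) a))
    (hG : ∀ x (hx : x ∈ gens1 K N),
      f ⟨x, mem_FF1_of_mem_gens1 hx⟩ = g ⟨x, mem_FF1_of_mem_gens1 hx⟩) : f = g := by
  ext x
  refine FF1_induction (p := fun x => f x = g x) hG hC ?_ ?_ ?_ x
  · intro x y hx hy
    rw [map_add, map_add, hx, hy]
  · intro x hx
    rw [map_inv₀, map_inv₀, hx]
  · intro x y hx hy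
    rw [map_mul, map_mul, hx, hy]

theorem mul_ne_zero_of_unit (a : (ZMod N)ˣ) {b : ZMod N} (hb : b ≠ 0) : (a : ZMod N) * b ≠ 0 :=
  fun h => hb ((Units.mul_right_eq_zero a).1 h)

/-- it is enough to check the definition of a diamond automorphism on the generators. -/
theorem isDiamond_of_gens {a : (ZMod N)ˣ} {δ : FF1 K N ≃ₐ[K] FF1 K N}
    (h1 : ∀ (d : ℕ) [NeZero d] (hd : d ∣ N),
      δ ⟨qExpand K d (jqModC K), FF_le_FF1 K N (jqModCd_mem_full K N hd)⟩ =
        ⟨qExpand K d (jqModC K), FF_le_FF1 K N (jqModCd_mem_full K N hd)⟩)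
    (h2 : ∀ (d : ℕ) [NeZero d] (hd : d ∣ N) (b : ZMod N) (hb : b ≠ 0),
      ((δ ⟨uB K N d b, uB_mem_FF1 hd hb⟩ : FF1 K N) : LaurentSeries K) =
        uB K N d ((a : ZMod N) * b)) : IsDiamond K N a δ := by
  refine ⟨?_, h2⟩
  have key : ∀ u ∈ FF K N, ∀ hu1 : u ∈ FF1 K N, δ ⟨u, hu1⟩ = ⟨u, hu1⟩ := by
    intro u hu
    induction hu using IntermediateField.adjoin_induction with
    | mem x hx =>
      obtain ⟨d, hd, hdN, rfl⟩ := hx
      intro _
      exact h1 d hdN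
    | algebraMap c =>
      intro _
      exact δ.commutes c
    | add x y hx' hy' hx hy =>
      intro _
      have e : (⟨x + y, ‹_›⟩ : FF1 K N) =
          ⟨x, FF_le_FF1 K N hx'⟩ + ⟨y, FF_le_FF1 K N hy'⟩ :=
        Subtype.ext (by rw [IntermediateField.coe_add])
      rw [e, map_add, hx, hy]
    | inv x hx' hx =>
      intro _
      have e : (⟨x⁻¹, ‹_›⟩ : FF1 K N) = (⟨x, FF_le_FF1 K N hx'⟩ : FF1 K N)⁻¹ :=
        Subtype.ext (by rw [IntermediateField.coe_inv])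
      rw [e, map_inv₀, hx]
    | mul x y hx' hy' hx hy =>
      intro _
      have e : (⟨x * y, ‹_›⟩ : FF1 K N) =
          ⟨x, FF_le_FF1 K N hx'⟩ * ⟨y, FF_le_FF1 K N hy'⟩ :=
        Subtype.ext (by rw [IntermediateField.coe_mul])
      rw [e, map_mul, hx, hy]
  rintro ⟨u, hu1⟩ hu
  exact key u hu hu1

/-- diamonds commute with base change. -/
theorem _root_.Fermat.Agent.G1.IsDiamond.bc_comm (φ : K →+* Ω) {a : (ZMod N)ˣ} {δ : FF1 K N ≃ₐ[K] FF1 K N}
    {δ' : FF1 Ω N ≃ₐ[Ω] FF1 Ω N} (h : IsDiamond K N a δ) (h' : IsDiamond Ω N a δ')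
    (x : FF1 K N) : bc N φ (δ x) = δ' (bc N φ x) := by
  have key : (bc N φ).comp (δ : FF1 K N →+* FF1 K N) =
      (δ' : FF1 Ω N →+* FF1 Ω N).comp (bc N φ) := by
    apply ringHom_ext_FF1
    · intro c
      change bc N φ (δ (algebraMap K (FF1 K N) c)) = δ' (bc N φ (algebraMap K (FF1 K N) c))
      rw [AlgEquiv.commutes, bc_algebraMap, AlgEquiv.commutes]
    · rintro x (⟨d, hd, hdN, rfl⟩ | ⟨d, hd, b, hdN, hb, rfl⟩)
      · change bc N φ (δ _) = δ' (bc N φ _)
        rw [h.fix _ (jqModCd_mem_full K N hdN), h'.fix _ ?_]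
        exact GR.C.coeffMap_mem_FF N φ (jqModCd_mem_full K N hdN)
      · change bc N φ (δ _) = δ' (bc N φ _)
        have e : bc N φ ⟨uB K N d b, uB_mem_FF1 hdN hb⟩ = ⟨uB Ω N d b, uB_mem_FF1 hdN hb⟩ :=
          Subtype.ext (coeffMap_uB φ N d b)
        apply Subtype.ext
        rw [e, h'.map_uB d hdN b hb, coe_bc, h.map_uB d hdN b hb, coeffMap_uB]
  exact congrArg (fun f : FF1 K N →+* FF1 Ω N => f x) key

/-- diamonds commute with the action of the automorphisms of the constants on the coefficients. -/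
theorem _root_.Fermat.Agent.G1.IsDiamond.coeffMap_comm {a : (ZMod N)ˣ} {δ : FF1 K N ≃ₐ[K] FF1 K N}
    (h : IsDiamond K N a δ) (σ : K →+* K) (x : FF1 K N) :
    coeffMap σ ((δ x : FF1 K N) : LaurentSeries K) = ((δ (bc N σ x) : FF1 K N) : LaurentSeries K) :=
  congrArg Subtype.val (h.bc_comm σ h x)

/-- the diamond automorphism is unique. -/
theorem Diamond_unique {a : (ZMod N)ˣ} {δ δ' : FF1 K N ≃ₐ[K] FF1 K N}
    (h : IsDiamond K N a δ) (h' : IsDiamond K N a δ') : δ = δ' := by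
  apply AlgEquiv.ext
  intro x
  have := h.bc_comm (RingHom.id K) h' x
  rwa [bc_id, bc_id] at this

theorem Diamond_refl : IsDiamond K N 1 (AlgEquiv.refl : FF1 K N ≃ₐ[K] FF1 K N) :=
  ⟨fun _ _ => rfl, fun d _ hd b hb => by simp⟩

theorem Diamond_trans {a b : (ZMod N)ˣ} {δ δ' : FF1 K N ≃ₐ[K] FF1 K N}
    (h : IsDiamond K N a δ) (h' : IsDiamond K N b δ') : IsDiamond K N (a * b) (δ'.trans δ) := by
  refine ⟨fun x hx => ?_, fun d _ hd c hc => ?_⟩
  · rw [AlgEquiv.trans_apply, h'.fix x hx, h.fix x hx]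
  · have e : δ' ⟨uB K N d c, uB_mem_FF1 hd hc⟩ =
        ⟨uB K N d ((b : ZMod N) * c), uB_mem_FF1 hd (mul_ne_zero_of_unit b hc)⟩ :=
      Subtype.ext (h'.map_uB d hd c hc)
    rw [AlgEquiv.trans_apply, e, h.map_uB d hd _ (mul_ne_zero_of_unit b hc), Units.val_mul,
      mul_assoc]

theorem Diamond_symm {a : (ZMod N)ˣ} {δ : FF1 K N ≃ₐ[K] FF1 K N}
    (h : IsDiamond K N a δ) : IsDiamond K N a⁻¹ δ.symm := by
  refine ⟨fun x hx => ?_, fun d _ hd c hc => ?_⟩
  · rw [AlgEquiv.symm_apply_eq, h.fix x hx]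
  · have e : δ ⟨uB K N d (((a⁻¹ : (ZMod N)ˣ) : ZMod N) * c),
        uB_mem_FF1 hd (mul_ne_zero_of_unit a⁻¹ hc)⟩ = ⟨uB K N d c, uB_mem_FF1 hd hc⟩ := by
      apply Subtype.ext
      rw [h.map_uB d hd _ (mul_ne_zero_of_unit a⁻¹ hc), ← mul_assoc, Units.mul_inv, one_mul]
    rw [← e, AlgEquiv.symm_apply_apply]

/-- the image of `FF1 K N` in `FF1 Ω N` is stable under the diamond automorphisms. -/
theorem _root_.Fermat.Agent.G1.IsDiamond.exists_preimage (φ : K →+* Ω) {a : (ZMod N)ˣ} {δ : FF1 Ω N ≃ₐ[Ω] FF1 Ω N}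
    (h : IsDiamond Ω N a δ) (x : FF1 K N) : ∃ y : FF1 K N, bc N φ y = δ (bc N φ x) := by
  refine FF1_induction (p := fun x => ∃ y : FF1 K N, bc N φ y = δ (bc N φ x)) ?_ ?_ ?_ ?_ ?_ x
  · rintro x (⟨d, hd, hdN, rfl⟩ | ⟨d, hd, b, hdN, hb, rfl⟩)
    · refine ⟨_, (h.fix _ ?_).symm⟩
      exact GR.C.coeffMap_mem_FF N φ (jqModCd_mem_full K N hdN)
    · refine ⟨⟨uB K N d ((a : ZMod N) * b), uB_mem_FF1 hdN (mul_ne_zero_of_unit a hb)⟩,
        Subtype.ext ?_⟩
      have e : bc N φ ⟨uB K N d b, uB_mem_FF1 hdN hb⟩ = ⟨uB Ω N d b, uB_mem_FF1 hdN hb⟩ :=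
        Subtype.ext (coeffMap_uB φ N d b)
      change _ = ((δ (bc N φ ⟨uB K N d b, uB_mem_FF1 hdN hb⟩) : FF1 Ω N) : LaurentSeries Ω)
      rw [e, h.map_uB d hdN b hb, coe_bc, coeffMap_uB]
  · intro c
    exact ⟨algebraMap K _ c, by rw [bc_algebraMap, AlgEquiv.commutes]⟩
  · rintro x y ⟨x', hx⟩ ⟨y', hy⟩
    exact ⟨x' + y', by rw [map_add, map_add, map_add, hx, hy]⟩
  · rintro x ⟨x', hx⟩
    exact ⟨x'⁻¹, by rw [map_inv₀, map_inv₀, map_inv₀, hx]⟩
  · rintro x y ⟨x', hx⟩ ⟨y', hy⟩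
    exact ⟨x' * y', by rw [map_mul, map_mul, map_mul, hx, hy]⟩

/-- descent of an automorphism which preserves the image of `FF1 K N`. -/
theorem exists_descend_algEquiv (φ : K →+* Ω) (δ : FF1 Ω N ≃ₐ[Ω] FF1 Ω N)
    (h1 : ∀ x : FF1 K N, ∃ y : FF1 K N, bc N φ y = δ (bc N φ x))
    (h2 : ∀ x : FF1 K N, ∃ y : FF1 K N, bc N φ y = δ.symm (bc N φ x)) :
    ∃ δ₀ : FF1 K N ≃ₐ[K] FF1 K N, ∀ x, bc N φ (δ₀ x) = δ (bc N φ x) := by
  choose f hf using h1
  choose g hg using h2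
  have hinj : Function.Injective (bc N φ) := (bc N φ).injective
  let δ₀ : FF1 K N ≃ₐ[K] FF1 K N :=
    { toFun := f
      invFun := g
      left_inv := fun x => hinj (by rw [hg, hf, AlgEquiv.symm_apply_apply])
      right_inv := fun x => hinj (by rw [hf, hg, AlgEquiv.apply_symm_apply])
      map_mul' := fun x y => hinj (by rw [hf, map_mul, map_mul, map_mul, hf, hf])
      map_add' := fun x y => hinj (by rw [hf, map_add, map_add, map_add, hf, hf])
      commutes' := fun c => hinj (by rw [hf, bc_algebraMap, AlgEquiv.commutes]) }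
  exact ⟨δ₀, hf⟩

/-- descent of a diamond automorphism. -/
theorem _root_.Fermat.Agent.G1.IsDiamond.exists_descend (φ : K →+* Ω) {a : (ZMod N)ˣ} {δ : FF1 Ω N ≃ₐ[Ω] FF1 Ω N}
    (h : IsDiamond Ω N a δ) : ∃ δ₀ : FF1 K N ≃ₐ[K] FF1 K N, IsDiamond K N a δ₀ := by
  obtain ⟨δ₀, hδ₀⟩ := exists_descend_algEquiv φ δ (h.exists_preimage φ) ((Diamond_symm h).exists_preimage φ)
  have hinj : Function.Injective (bc N φ) := (bc N φ).injective
  refine ⟨δ₀, ⟨fun x hx => hinj ?_, fun d _ hd b hb => coeffMap_injective φ ?_⟩⟩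
  · rw [hδ₀, h.fix _ ?_]
    exact GR.C.coeffMap_mem_FF N φ hx
  · have e : bc N φ ⟨uB K N d b, uB_mem_FF1 hd hb⟩ = ⟨uB Ω N d b, uB_mem_FF1 hd hb⟩ :=
      Subtype.ext (coeffMap_uB φ N d b)
    rw [← coe_bc, hδ₀, e, h.map_uB d hd b hb, coeffMap_uB]

/-- the diamond automorphisms descend. -/
theorem _root_.Fermat.Agent.G1.DiamondExists.descend (φ : K →+* Ω) (h : DiamondExists Ω N) : DiamondExists K N := by
  intro a
  obtain ⟨δ, hδ⟩ := h a
  exact hδ.exists_descend φ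

end General

section Extend

variable {K Ω : Type} [Field K] [Field Ω] [Algebra K Ω] {N : ℕ}

/-- extension of scalars for an endomorphism of `FF1 K N`. -/
theorem exists_extend_algHom (δ : FF1 K N →ₐ[K] FF1 K N) :
    ∃ δ' : FF1 Ω N →ₐ[Ω] FF1 Ω N,
      ∀ f : FF1 K N, δ' (bc N (algebraMap K Ω) f) = bc N (algebraMap K Ω) (δ f) := by
  obtain ⟨φ', h1, h2⟩ := exists_extend_hom_FF (Ω := Ω) N
    (((FF1 K N).val : FF1 K N →+* LaurentSeries K).comp (δ : FF1 K N →+* FF1 K N))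
    (fun a => by
      change ((δ (algebraMap K (FF1 K N) a) : FF1 K N) : LaurentSeries K) = _
      rw [AlgHom.commutes]
      exact algebraMap_laurentSeries_eq_single K a)
  have hmem : ∀ y : FF1 Ω N, φ' y ∈ FF1 Ω N := by
    intro y
    refine FF1_induction (p := fun y => φ' y ∈ FF1 Ω N) ?_ ?_ ?_ ?_ ?_ y
    · intro y hy
      obtain ⟨x, hx, rfl⟩ := exists_coeffMap_eq_of_mem_gens1 (algebraMap K Ω) hy
      have h3 := h2 ⟨x, mem_FF1_of_mem_gens1 hx⟩
      have e : (⟨coeffMap (algebraMap K Ω) x, mem_FF1_of_mem_gens1 hy⟩ : FF1 Ω N) =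
          bc N (algebraMap K Ω) ⟨x, mem_FF1_of_mem_gens1 hx⟩ := rfl
      rw [e, h3]
      exact coeffMap_mem_FF N _ (SetLike.coe_mem _)
    · intro c
      rw [h1]
      have := (FF1 Ω N).algebraMap_mem c
      rwa [algebraMap_laurentSeries_eq_single] at this
    · intro x y hx hy
      rw [map_add]
      exact add_mem hx hy
    · intro x hx
      rw [map_inv₀]
      exact inv_mem hx
    · intro x y hx hy
      rw [map_mul]
      exact mul_mem hx hy
  let δ' : FF1 Ω N →ₐ[Ω] FF1 Ω N :=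
    { toFun := fun y => ⟨φ' y, hmem y⟩
      map_one' := Subtype.ext (map_one φ')
      map_mul' := fun x y => Subtype.ext (map_mul φ' x y)
      map_zero' := Subtype.ext (map_zero φ')
      map_add' := fun x y => Subtype.ext (map_add φ' x y)
      commutes' := fun c => Subtype.ext ((h1 c).trans (algebraMap_laurentSeries_eq_single Ω c).symm) }
  exact ⟨δ', fun f => Subtype.ext (h2 f)⟩

/-- an `Ω`-endomorphism of `FF1 Ω N` which is the identity on the image of `FF1 K N` is the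
identity. -/
theorem algHom_eq_id_of_bc (ε : FF1 Ω N →ₐ[Ω] FF1 Ω N)
    (h : ∀ f : FF1 K N, ε (bc N (algebraMap K Ω) f) = bc N (algebraMap K Ω) f) :
    ε = AlgHom.id Ω (FF1 Ω N) := by
  have key : (ε : FF1 Ω N →+* FF1 Ω N) = RingHom.id (FF1 Ω N) := by
    apply ringHom_ext_FF1
    · intro c
      exact ε.commutes c
    · intro y hy
      obtain ⟨x, hx, rfl⟩ := exists_coeffMap_eq_of_mem_gens1 (algebraMap K Ω) hy
      exact h ⟨x, mem_FF1_of_mem_gens1 hx⟩
  apply AlgHom.ext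
  intro y
  exact congrArg (fun f : FF1 Ω N →+* FF1 Ω N => f y) key

/-- extension of scalars for an automorphism of `FF1 K N`. -/
theorem exists_extend_algEquiv (δ : FF1 K N ≃ₐ[K] FF1 K N) :
    ∃ δ' : FF1 Ω N ≃ₐ[Ω] FF1 Ω N,
      ∀ f : FF1 K N, δ' (bc N (algebraMap K Ω) f) = bc N (algebraMap K Ω) (δ f) := by
  obtain ⟨α, hα⟩ := exists_extend_algHom (Ω := Ω) (δ : FF1 K N →ₐ[K] FF1 K N)
  obtain ⟨β, hβ⟩ := exists_extend_algHom (Ω := Ω) (δ.symm : FF1 K N →ₐ[K] FF1 K N)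
  refine ⟨AlgEquiv.ofAlgHom α β ?_ ?_, hα⟩
  · apply algHom_eq_id_of_bc (K := K)
    intro f
    rw [AlgHom.comp_apply, hβ, hα]
    simp
  · apply algHom_eq_id_of_bc (K := K)
    intro f
    rw [AlgHom.comp_apply, hα, hβ]
    simp

/-- extension of scalars for a diamond automorphism. -/
theorem _root_.Fermat.Agent.G1.IsDiamond.exists_extend {a : (ZMod N)ˣ} {δ : FF1 K N ≃ₐ[K] FF1 K N}
    (h : IsDiamond K N a δ) : ∃ δ' : FF1 Ω N ≃ₐ[Ω] FF1 Ω N, IsDiamond Ω N a δ' := by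
  obtain ⟨δ', hδ'⟩ := exists_extend_algEquiv (Ω := Ω) δ
  refine ⟨δ', isDiamond_of_gens ?_ ?_⟩
  · intro d _ hd
    have e : (⟨qExpand Ω d (jqModC Ω), FF_le_FF1 Ω N (jqModCd_mem_full Ω N hd)⟩ : FF1 Ω N) =
        bc N (algebraMap K Ω)
          ⟨qExpand K d (jqModC K), FF_le_FF1 K N (jqModCd_mem_full K N hd)⟩ :=
      Subtype.ext (by rw [coe_bc, coeffMap_qExpand, coeffMap_jqModC])
    rw [e, hδ', h.fix _ (jqModCd_mem_full K N hd)]
  · intro d _ hd b hb
    have e : (⟨uB Ω N d b, uB_mem_FF1 hd hb⟩ : FF1 Ω N) =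
        bc N (algebraMap K Ω) ⟨uB K N d b, uB_mem_FF1 hd hb⟩ :=
      Subtype.ext (coeffMap_uB (algebraMap K Ω) N d b).symm
    rw [e, hδ', coe_bc, h.map_uB d hd b hb, coeffMap_uB]

/-- the diamond automorphisms extend. -/
theorem _root_.Fermat.Agent.G1.DiamondExists.extend (h : DiamondExists K N) : DiamondExists Ω N := by
  intro a
  obtain ⟨δ, hδ⟩ := h a
  exact hδ.exists_extend

end Extend

/-- the diamond automorphisms over one field of characteristic zero (e.g. `ℂ`) give the diamond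
automorphisms over all of them. -/
theorem _root_.Fermat.Agent.G1.DiamondExists.of_charZero {K₀ : Type} [Field K₀] [CharZero K₀] {N : ℕ}
    (h : DiamondExists K₀ N) (K : Type) [Field K] [CharZero K] : DiamondExists K N :=
  DiamondExists.extend (K := ℚ) (DiamondExists.descend (algebraMap ℚ K₀) h)

end Fermat.Agent.G1.C
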