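import Fermat.Agent.G1.C.Basic


set_option autoImplicit false

noncomputable section

open ModularCurve AlgebraicCurve

namespace Fermat.Agent.G1.C

open Fermat.Agent.GR Fermat.Agent.GR.C

variable {N : ℕ}

/-- (C6) every element of the function field over `ℚ̄` is fixed by an open subgroup. -/
theorem exists_finite_level_Qbar {u : LaurentSeries (AlgebraicClosure ℚ)}
    (hu : u ∈ FF1 (AlgebraicClosure ℚ) N) :
    ∃ L : IntermediateField ℚ (AlgebraicClosure ℚ), FiniteDimensional ℚ L ∧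
      ∀ σ : AlgebraicClosure ℚ ≃ₐ[ℚ] AlgebraicClosure ℚ, (∀ x ∈ L, σ x = x) →
        coeffMap (σ : AlgebraicClosure ℚ →+* AlgebraicClosure ℚ) u = u := by
  rw [FF1_eq_adjoin] at hu
  induction hu using IntermediateField.adjoin_induction with
  | mem x hx =>
      exact ⟨⊥, inferInstance, fun σ _ => coeffMap_eq_self_of_mem_gens1 _ hx⟩
  | algebraMap a =>
      have ha : IsIntegral ℚ a := by
        have h : @IsIntegral ℚ (AlgebraicClosure ℚ) _ _ (AlgebraicClosure.instAlgebra ℚ) a :=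
          (AlgebraicClosure.isAlgebraic ℚ).isIntegral.isIntegral a
        have e : (DivisionRing.toRatAlgebra : Algebra ℚ (AlgebraicClosure ℚ)) =
            AlgebraicClosure.instAlgebra ℚ := Subsingleton.elim _ _
        rw [e]
        exact h
      refine ⟨IntermediateField.adjoin ℚ {a}, IntermediateField.adjoin.finiteDimensional ha,
        fun σ hσ => ?_⟩
      rw [coeffMap_algebraMap']
      congr 1
      exact hσ a (IntermediateField.mem_adjoin_simple_self ℚ a)
  | add x y _ _ hx hy =>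
      obtain ⟨L1, h1, hL1⟩ := hx
      obtain ⟨L2, h2, hL2⟩ := hy
      refine ⟨L1 ⊔ L2, IntermediateField.finiteDimensional_sup L1 L2, fun σ hσ => ?_⟩
      rw [map_add, hL1 σ fun x hx => hσ x ((le_sup_left : L1 ≤ L1 ⊔ L2) hx),
        hL2 σ fun x hx => hσ x ((le_sup_right : L2 ≤ L1 ⊔ L2) hx)]
  | inv x _ hx =>
      obtain ⟨L1, h1, hL1⟩ := hx
      exact ⟨L1, h1, fun σ hσ => by rw [map_inv₀, hL1 σ hσ]⟩
  | mul x y _ _ hx hy =>
      obtain ⟨L1, h1, hL1⟩ := hx
      obtain ⟨L2, h2, hL2⟩ := hy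
      refine ⟨L1 ⊔ L2, IntermediateField.finiteDimensional_sup L1 L2, fun σ hσ => ?_⟩
      rw [map_mul, hL1 σ fun x hx => hσ x ((le_sup_left : L1 ≤ L1 ⊔ L2) hx),
        hL2 σ fun x hx => hσ x ((le_sup_right : L2 ≤ L1 ⊔ L2) hx)]

end Fermat.Agent.G1.C
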