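import Fermat.Agent.G1.C.MainQbar
import Fermat.Agent.G1.C.Diamond
import Fermat.Agent.G1.C.Level
import Fermat.Agent.G1.F.Main
import Fermat.Agent.G1.Diamond

/-!
# G1-C: exports in the form used by G1-F / G1-H / G1-I

* `galStable`, `kummerEquiv_gal`, `exists_level_of_mem_FF`: the Galois action on Kummer classes.
* `coeffMap_heckeMulT1`, `gal_heckeMulT1`: naturality of the multiplicative Hecke operator.
* `heckeStable_of_complex`: `HeckeStable` over `ℚ̄` from the statements over `ℂ`.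
* `diamondExists_Qbar`, `coeffMap_diam`, `gal_diam`: the chosen diamonds `diam K M a`.
-/

set_option autoImplicit false

noncomputable section

open ModularCurve AlgebraicCurve IntermediateField

namespace Fermat.Agent.G1.C

open Fermat.Agent.GR Fermat.Agent.GR.C

theorem bc_eq_mapFF1 {K K' : Type*} [Field K] [Field K'] (φ : K →+* K') (N : ℕ) :
    bc N φ = E.mapFF1 φ N := rfl

/-- (input `GalStable` of G1-F). -/
theorem galStable (N n : ℕ) : GalStable N n := by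
  intro σ u hu
  exact isKummer_coeffMap_ringEquiv hu σ.toRingEquiv

theorem kummerEquiv_gal {N n : ℕ} (σ : Qbar ≃ₐ[ℚ] Qbar) {u v : LaurentSeries Qbar}
    (h : KummerEquiv1 N n u v) : KummerEquiv1 N n (gal σ u) (gal σ v) :=
  kummerEquiv_coeffMap h _

/-- Every element of the function field is defined over a number field. -/
theorem exists_level_of_mem_FF {N : ℕ} {u : LaurentSeries Qbar} (hu : u ∈ FF1 Qbar N) :
    ∃ L : IntermediateField ℚ Qbar, FiniteDimensional ℚ L ∧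
      ∀ σ : Qbar ≃ₐ[ℚ] Qbar, (∀ x ∈ L, σ x = x) → gal σ u = u :=
  exists_finite_level_Qbar hu

section Hecke

variable {K K' : Type*} [Field K] [Field K'] {N : ℕ}

/-- naturality of the multiplicative Hecke operator with diamonds. -/
theorem coeffMap_heckeMulT1 (φ : K →+* K') (p : ℕ) [NeZero p] (ζ : Kˣ) {a : (ZMod N)ˣ}
    {δ : FF1 K N ≃ₐ[K] FF1 K N} {δ' : FF1 K' N ≃ₐ[K'] FF1 K' N}
    (h : IsDiamond K N a δ) (h' : IsDiamond K' N a δ') (u : FF1 K N) :
    coeffMap φ (heckeMulT1 p ζ δ u) =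
      heckeMulT1 p (Units.map (φ : K →* K') ζ) δ' (bc N φ u) := by
  unfold heckeMulT1
  rw [map_mul, coeffMap_normT, coeffMap_qExpand, ← coe_bc, h.bc_comm φ h', coe_bc]

end Hecke

/-- the Galois action commutes with the multiplicative Hecke operator. -/
theorem gal_heckeMulT1 {N : ℕ} (σ : Qbar ≃ₐ[ℚ] Qbar) (p : ℕ) [NeZero p] (ζ : Qbarˣ)
    {a : (ZMod N)ˣ} {δ : FF1 Qbar N ≃ₐ[Qbar] FF1 Qbar N} (h : IsDiamond Qbar N a δ)
    (u : FF1 Qbar N) :
    gal σ (heckeMulT1 p ζ δ u) =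
      heckeMulT1 p (Units.map ((σ : Qbar →+* Qbar) : Qbar →* Qbar) ζ) δ
        (bc N (σ : Qbar →+* Qbar) u) :=
  coeffMap_heckeMulT1 (σ : Qbar →+* Qbar) p ζ h h u

/-- (input `HeckeStable` of G1-F) from the corresponding statements over `ℂ` (G1-B). -/
theorem heckeStable_of_complex (ι : Qbar →+* ℂ) {N n ℓ : ℕ} [NeZero N] [NeZero ℓ]
    (hA : AlgRel ℂ N) {a : (ZMod N)ˣ} {δ : FF1 Qbar N ≃ₐ[Qbar] FF1 Qbar N}
    {δ' : FF1 ℂ N ≃ₐ[ℂ] FF1 ℂ N} (h : IsDiamond Qbar N a δ) (h' : IsDiamond ℂ N a δ')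
    (ζ : Qbarˣ)
    (h1 : ∀ U : FF1 ℂ N, heckeMulT1 ℓ (Units.map (ι : Qbar →* ℂ) ζ) δ' U ∈ FF1 ℂ N)
    (h2 : ∀ U : FF1 ℂ N, IsKummer1 (M := N) n (U : LaurentSeries ℂ) →
      IsKummer1 (M := N) n (heckeMulT1 ℓ (Units.map (ι : Qbar →* ℂ) ζ) δ' U)) :
    HeckeStable N n ℓ ζ δ := by
  refine ⟨fun u => ?_, fun u hu => ?_⟩
  · rw [← mem_FF_coeffMap_hom_iff ι, coeffMap_heckeMulT1 ι ℓ ζ h h']
    exact h1 _
  · rw [← isKummer_iota_iff ι hA, coeffMap_heckeMulT1 ι ℓ ζ h h']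
    exact h2 _ ((isKummer_iota_iff ι hA).2 hu)

/-- the diamond automorphisms exist over `ℚ̄`. -/
theorem diamondExists_Qbar {N : ℕ} (h : DiamondExists ℂ N) : DiamondExists Qbar N :=
  h.of_charZero Qbar

/-- the chosen diamonds commute with base change. -/
theorem bc_diam {K K' : Type*} [Field K] [Field K'] {N : ℕ} (φ : K →+* K')
    (h : DiamondExists K N) (h' : DiamondExists K' N) (a : (ZMod N)ˣ) (x : FF1 K N) :
    bc N φ (diam K N a x) = diam K' N a (bc N φ x) :=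
  (isDiamond_diam h a).bc_comm φ (isDiamond_diam h' a) x

end Fermat.Agent.G1.C
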