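import Fermat.Agent.G1.C.Basic
import Fermat.Agent.GR.C.Extend

/-!
# G1-C (port of GR-C): LD-6, extension of homomorphisms to the base change
-/

set_option autoImplicit false

noncomputable section

open ModularCurve AlgebraicCurve IntermediateField
open scoped TensorProduct

namespace Fermat.Agent.G1.C

open Fermat.Agent.GR Fermat.Agent.GR.C

variable {K Ω : Type} [Field K] [Field Ω] [Algebra K Ω]

/-- `FF1 Ω N` is generated over `Ω` by the image of `FF1 K N`. -/
theorem Extend_FF_eq_adjoin_image (N : ℕ) :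
    FF1 Ω N = IntermediateField.adjoin Ω
      (⇑(coeffMap (algebraMap K Ω)) '' ((FF1 K N : IntermediateField K (LaurentSeries K)) :
        Set (LaurentSeries K))) := by
  apply le_antisymm
  · rw [FF1_eq_adjoin]
    apply IntermediateField.adjoin_le_iff.mpr
    intro y hy
    obtain ⟨x, hx, rfl⟩ := exists_coeffMap_eq_of_mem_gens1 (algebraMap K Ω) hy
    apply IntermediateField.subset_adjoin
    exact ⟨x, mem_FF1_of_mem_gens1 hx, rfl⟩
  · apply IntermediateField.adjoin_le_iff.mpr
    rintro _ ⟨f, hf, rfl⟩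
    exact coeffMap_mem_FF N _ hf

/-- LD-6'. -/
theorem exists_extend_hom_FF (N : ℕ)
    (φ : FF1 K N →+* LaurentSeries K) (hφ : ∀ a : K, φ (algebraMap K (FF1 K N) a) = HahnSeries.C a) :
    ∃ φ' : FF1 Ω N →+* LaurentSeries Ω,
      (∀ c : Ω, φ' (algebraMap Ω (FF1 Ω N) c) = HahnSeries.C c) ∧
      ∀ f : FF1 K N, φ' (bc N (algebraMap K Ω) f) = coeffMap (algebraMap K Ω) (φ f) := by
  obtain ⟨φ', h1, h2⟩ := exists_extend_hom (Ω := Ω) (FF1 K N) φ hφ
  have heq := Extend_FF_eq_adjoin_image (K := K) (Ω := Ω) N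
  let ε : FF1 Ω N →ₐ[Ω] IntermediateField.adjoin Ω
      (⇑(coeffMap (algebraMap K Ω)) '' ((FF1 K N : IntermediateField K (LaurentSeries K)) :
        Set (LaurentSeries K))) := IntermediateField.inclusion heq.le
  refine ⟨φ'.comp ε.toRingHom, ?_, ?_⟩
  · intro c
    show φ' (ε (algebraMap Ω (FF1 Ω N) c)) = _
    rw [AlgHom.commutes, h1]
  · intro f
    exact h2 f

end Fermat.Agent.G1.C
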