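import Fermat.Agent.G1.C.Finite

/-!
# G1-C (port of GR-C), piece FD-4: the function field over `ℚ̄` is finite over `ℚ̄(j)`
-/

set_option autoImplicit false

noncomputable section

open ModularCurve AlgebraicCurve IntermediateField

namespace Fermat.Agent.G1.C

open Fermat.Agent.GR Fermat.Agent.GR.C

theorem finiteDimensional_FF_Qbar (N : ℕ) [NeZero N] (h : AlgRel ℂ N) :
    FiniteDimensional (IntermediateField.adjoin (AlgebraicClosure ℚ) {jF (AlgebraicClosure ℚ) N})
      (FF1 (AlgebraicClosure ℚ) N) :=
  finiteDimensional_FF (AlgebraicClosure ℚ) N (h.of_charZero (AlgebraicClosure ℚ))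

end Fermat.Agent.G1.C
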