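import Fermat.Agent.G1.C.MainQbar

/-!
# G1-C (port of GR-C): an invariant class has an invariant representative

If the class of `u` modulo `n`-th powers is fixed by a set `H` of automorphisms of the constant
field, then the canonical representative of the class is fixed by `H` coefficientwise.
-/

set_option autoImplicit false

noncomputable section

open ModularCurve AlgebraicCurve IntermediateField

namespace Fermat.Agent.G1.C

open Fermat.Agent.GR Fermat.Agent.GR.C

/-- General form: `Ω` algebraically closed of characteristic zero. -/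
theorem exists_fixed_rep {Ω : Type} [Field Ω] [IsAlgClosed Ω] [CharZero Ω] {N n : ℕ} (hn : 0 < n)
    (hΩ : FiniteDimensional (IntermediateField.adjoin Ω {jF Ω N}) (FF1 Ω N))
    {u : LaurentSeries Ω} (hu : u ∈ FF1 Ω N) (hu0 : u ≠ 0) :
    ∃ w : LaurentSeries Ω, KummerEquiv1 N n u w ∧ w.leadingCoeff = 1 ∧
      ∀ σ : Ω ≃+* Ω, KummerEquiv1 N n u (coeffMap (σ : Ω →+* Ω) u) →
        coeffMap (σ : Ω →+* Ω) w = w := by
  have hx := transcendental_jF Ω N
  obtain ⟨vinf, hvinf⟩ := exists_infPlace (order_jF Ω N)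
  have hU0 : (⟨u, hu⟩ : FF1 Ω N) ≠ 0 := fun h => hu0 (congrArg Subtype.val h)
  obtain ⟨w, hw⟩ := exists_isCan hx hΩ vinf hvinf hn hU0
  refine ⟨w, ?_, hw.lead, ?_⟩
  · obtain ⟨z, hz0, hz⟩ := hw.mem
    refine ⟨z, z.2, fun h => hz0 (Subtype.ext h), ?_⟩
    rw [hz]
    rfl
  · rintro σ ⟨z, hz, hz0, hσ⟩
    have h1 := isCan_ffAut hw σ
    have hcls : (⟨u, hu⟩ : FF1 Ω N) ∈ Cls n (bc N (σ : Ω →+* Ω) (⟨u, hu⟩ : FF1 Ω N)) := by
      refine ⟨⟨z⁻¹, inv_mem hz⟩, ?_, Subtype.ext ?_⟩
      · intro h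
        exact inv_ne_zero hz0 (congrArg Subtype.val h)
      · change u = coeffMap (σ : Ω →+* Ω) u * (z⁻¹) ^ n
        rw [hσ, inv_pow, mul_assoc, mul_inv_cancel₀ (pow_ne_zero _ hz0), mul_one]
    have h2 := (h1.congr hcls).unique hn hU0 hw
    have h3 := congrArg (fun f : FF1 Ω N => (f : LaurentSeries Ω)) h2
    simpa only [coe_bc] using h3

/-- The case of `ℚ̄`. -/
theorem exists_fixed_rep_Qbar {N n : ℕ} [NeZero N] (hA : AlgRel ℂ N) (hn : 0 < n)
    {u : LaurentSeries (AlgebraicClosure ℚ)} (hu : u ∈ FF1 (AlgebraicClosure ℚ) N) (hu0 : u ≠ 0) :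
    ∃ w : LaurentSeries (AlgebraicClosure ℚ), KummerEquiv1 N n u w ∧ w.leadingCoeff = 1 ∧
      ∀ σ : AlgebraicClosure ℚ ≃ₐ[ℚ] AlgebraicClosure ℚ,
        KummerEquiv1 N n u (coeffMap (σ : AlgebraicClosure ℚ →+* AlgebraicClosure ℚ) u) →
        coeffMap (σ : AlgebraicClosure ℚ →+* AlgebraicClosure ℚ) w = w := by
  obtain ⟨w, h1, h2, h3⟩ := exists_fixed_rep hn (finiteDimensional_FF_Qbar N hA) hu hu0
  exact ⟨w, h1, h2, fun σ hσ => h3 σ.toRingEquiv hσ⟩

/-- The coefficients of an element of `FF1 ℚ̄ N` generate a number field `L₀`; an automorphism fixes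
the series iff it fixes `L₀`. -/
theorem exists_coeffField {N : ℕ} {w : LaurentSeries (AlgebraicClosure ℚ)}
    (hw : w ∈ FF1 (AlgebraicClosure ℚ) N) :
    ∃ L₀ : IntermediateField ℚ (AlgebraicClosure ℚ), FiniteDimensional ℚ L₀ ∧
      (∀ k : ℤ, w.coeff k ∈ L₀) ∧
      ∀ σ : AlgebraicClosure ℚ ≃ₐ[ℚ] AlgebraicClosure ℚ,
        coeffMap (σ : AlgebraicClosure ℚ →+* AlgebraicClosure ℚ) w = w → ∀ a ∈ L₀, σ a = a := by
  have halg : Algebra.IsAlgebraic ℚ (AlgebraicClosure ℚ) := AlgebraicClosure.isAlgebraic ℚ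
  have hcl : IsAlgClosure ℚ (AlgebraicClosure ℚ) := ⟨inferInstance, halg⟩
  have hnor : Normal ℚ (AlgebraicClosure ℚ) := IsAlgClosure.normal ℚ (AlgebraicClosure ℚ)
  have hgal : IsGalois ℚ (AlgebraicClosure ℚ) := ⟨⟩
  obtain ⟨L, hL, hfix⟩ := exists_finite_level (k := ℚ) N w hw
  refine ⟨IntermediateField.adjoin ℚ (Set.range w.coeff), ?_, ?_, ?_⟩
  · have hle : IntermediateField.adjoin ℚ (Set.range w.coeff) ≤ L := by
      rw [IntermediateField.adjoin_le_iff]
      rintro _ ⟨k, rfl⟩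
      have h1 : w.coeff k ∈ IntermediateField.fixedField L.fixingSubgroup := by
        rw [IntermediateField.mem_fixedField_iff]
        intro σ hσ
        have h2 := hfix σ (fun a ha => (IntermediateField.mem_fixingSubgroup_iff L σ).1 hσ a ha)
        have h3 := congrArg (fun f => HahnSeries.coeff f k) h2
        simp only [coeffMap_coeff] at h3
        exact h3
      rwa [InfiniteGalois.fixedField_fixingSubgroup] at h1
    exact Module.Finite.of_injective (IntermediateField.inclusion hle).toLinearMap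
      (IntermediateField.inclusion hle).injective
  · intro k
    exact IntermediateField.subset_adjoin ℚ _ ⟨k, rfl⟩
  · intro σ hσ a ha
    induction ha using IntermediateField.adjoin_induction with
    | mem x hx =>
        obtain ⟨k, rfl⟩ := hx
        have h3 := congrArg (fun f => HahnSeries.coeff f k) hσ
        simp only [coeffMap_coeff] at h3
        exact h3
    | algebraMap r => exact σ.commutes r
    | add x y _ _ hx hy => rw [map_add, hx, hy]
    | inv x _ hx => rw [map_inv₀, hx]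
    | mul x y _ _ hx hy => rw [map_mul, hx, hy]

end Fermat.Agent.G1.C
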