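import Fermat.Agent.G1.C.Basic
import Fermat.Agent.GR.C.LinDisj

/-!
# G1-C (port of GR-C), piece LD: linear disjointness of `Ω` and `k((q))` over `k` inside `Ω((q))`
-/

set_option autoImplicit false

noncomputable section

open ModularCurve AlgebraicCurve

namespace Fermat.Agent.G1.C

open Fermat.Agent.GR Fermat.Agent.GR.C

section

variable {K Ω : Type*} [Field K] [Field Ω] [Algebra K Ω]


/-- LD-4. -/
theorem FF_eq_adjoin_image (N : ℕ) :
    FF1 Ω N = IntermediateField.adjoin Ω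
      (⇑(coeffMap (algebraMap K Ω)) '' ((FF1 K N : IntermediateField K (LaurentSeries K)) :
        Set (LaurentSeries K))) := by
  apply le_antisymm
  · rw [FF1_eq_adjoin]
    refine IntermediateField.adjoin_le_iff.2 ?_
    intro y hy
    obtain ⟨x, hx, rfl⟩ := exists_coeffMap_eq_of_mem_gens1 (algebraMap K Ω) hy
    exact IntermediateField.subset_adjoin _ _ ⟨x, mem_FF1_of_mem_gens1 hx, rfl⟩
  · refine IntermediateField.adjoin_le_iff.2 ?_
    rintro _ ⟨f, hf, rfl⟩
    exact coeffMap_mem_FF N _ hf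

/-- LD-5 (explicit arguments): `F_Ω ∩ K((q)) = F_K`. -/
theorem mem_FF_of_coeffMap_mem' (N : ℕ) (f₀ : LaurentSeries K)
    (h : coeffMap (algebraMap K Ω) f₀ ∈ FF1 Ω N) : f₀ ∈ FF1 K N := by
  rw [FF_eq_adjoin_image (K := K) N] at h
  exact mem_of_coeffMap_mem_adjoin _ f₀ h

end

section

variable {k Ω : Type*} [Field k] [Field Ω] [Algebra k Ω]

/-- every element of `FF1 Ω N` is a quotient `a / b` of two `Ω`-linear combinations of elements of
`FF1 k N`, written over a common `k`-linearly independent family of coefficients. -/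
theorem exists_repr (k : Type*) [Field k] [Algebra k Ω] {N : ℕ} {x : LaurentSeries Ω}
    (hx : x ∈ FF1 Ω N) :
    ∃ (r : ℕ) (c : Fin r → Ω) (f g : Fin r → LaurentSeries k), LinearIndependent k c ∧
      (∀ i, f i ∈ FF1 k N) ∧ (∀ i, g i ∈ FF1 k N) ∧
      (∑ i, HahnSeries.C (c i) * coeffMap (algebraMap k Ω) (g i)) ≠ 0 ∧
      x * ∑ i, HahnSeries.C (c i) * coeffMap (algebraMap k Ω) (g i) = ∑ i, HahnSeries.C (c i) * coeffMap (algebraMap k Ω) (f i) := by
  rw [FF_eq_adjoin_image (K := k) N] at hx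
  exact exists_repr_adjoin hx

/-- (INT) `FF1 Ω N ∩ k((q)) = FF1 k N`. -/
theorem mem_FF_of_coeffMap_mem {N : ℕ} {x : LaurentSeries k} (hx : coeffMap (algebraMap k Ω) x ∈ FF1 Ω N) : x ∈ FF1 k N :=
  mem_FF_of_coeffMap_mem' N x hx

end

end Fermat.Agent.G1.C
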