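import Fermat.Agent.G1.C.Main
import Fermat.Agent.G1.C.FinDimQbar

/-!
# G1-C (port of GR-C): the main results for an embedding `ι : ℚ̄ →+* ℂ` (ring homomorphism form)
-/

set_option autoImplicit false

noncomputable section

open ModularCurve AlgebraicCurve IntermediateField

namespace Fermat.Agent.G1.C

open Fermat.Agent.GR Fermat.Agent.GR.C

section Hom

variable {K Ω : Type} [Field K] [Field Ω] (ι : K →+* Ω) {N n : ℕ}

theorem isKummer_coeffMap_hom {u : LaurentSeries K} (h : IsKummer1 (M := N) n u) :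
    IsKummer1 (M := N) n (coeffMap ι u) := by
  letI : Algebra K Ω := ι.toAlgebra
  exact isKummer_up (K := K) (Ω := Ω) h

theorem isKummer_of_coeffMap_hom [IsAlgClosed K] [CharZero K]
    (hK : FiniteDimensional (IntermediateField.adjoin K {jF K N}) (FF1 K N))
    {u : LaurentSeries K} (h : IsKummer1 (M := N) n (coeffMap ι u)) :
    IsKummer1 (M := N) n u := by
  letI : Algebra K Ω := ι.toAlgebra
  exact isKummer_down (K := K) (Ω := Ω) hK h

theorem mem_FF_of_coeffMap_hom {u : LaurentSeries K} (h : coeffMap ι u ∈ FF1 Ω N) :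
    u ∈ FF1 K N := by
  letI : Algebra K Ω := ι.toAlgebra
  exact mem_FF_of_coeffMap_mem' (K := K) (Ω := Ω) N u h

theorem mem_FF_coeffMap_hom_iff {u : LaurentSeries K} : coeffMap ι u ∈ FF1 Ω N ↔ u ∈ FF1 K N :=
  ⟨mem_FF_of_coeffMap_hom ι, coeffMap_mem_FF N ι⟩

theorem kummerEquiv_of_coeffMap_hom [IsAlgClosed K] [CharZero K] [IsAlgClosed Ω] (hn : 0 < n)
    {u u' : LaurentSeries K} (h : KummerEquiv1 N n (coeffMap ι u) (coeffMap ι u')) :
    KummerEquiv1 N n u u' := by
  letI : Algebra K Ω := ι.toAlgebra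
  exact kummerEquiv_down (K := K) (Ω := Ω) hn h

theorem kummerEquiv_coeffMap_hom_iff [IsAlgClosed K] [CharZero K] [IsAlgClosed Ω] (hn : 0 < n)
    {u u' : LaurentSeries K} :
    KummerEquiv1 N n (coeffMap ι u) (coeffMap ι u') ↔ KummerEquiv1 N n u u' :=
  ⟨kummerEquiv_of_coeffMap_hom ι hn, fun h => kummerEquiv_coeffMap h ι⟩

theorem exists_descent_hom [IsAlgClosed K] [CharZero K] [IsAlgClosed Ω] (hn : 0 < n)
    (hK : FiniteDimensional (IntermediateField.adjoin K {jF K N}) (FF1 K N))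
    (S : Set (LaurentSeries Ω)) (hSfin : S.Finite)
    (hS : ∀ u : LaurentSeries Ω, IsKummer1 (M := N) n u → ∃ s ∈ S, KummerEquiv1 N n s u)
    {U : LaurentSeries Ω} (hU : IsKummer1 (M := N) n U) :
    ∃ u : LaurentSeries K, IsKummer1 (M := N) n u ∧ KummerEquiv1 N n U (coeffMap ι u) := by
  letI : Algebra K Ω := ι.toAlgebra
  exact exists_descent (K := K) (Ω := Ω) hn hK S hSfin hS hU

/-- Descent, with the finiteness of the Kummer group given by a classifying relation `R` with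
values in a finite set `T`. -/
theorem exists_descent_of_rel [IsAlgClosed K] [CharZero K] [IsAlgClosed Ω] (hn : 0 < n)
    (hK : FiniteDimensional (IntermediateField.adjoin K {jF K N}) (FF1 K N))
    {X : Type*} (R : LaurentSeries Ω → X → Prop) (T : Set X) (hT : T.Finite)
    (h1 : ∀ U, IsKummer1 (M := N) n U → ∃ x ∈ T, R U x)
    (h2 : ∀ U U' x, IsKummer1 (M := N) n U → IsKummer1 (M := N) n U' → R U x → R U' x →
      KummerEquiv1 N n U U')
    {U : LaurentSeries Ω} (hU : IsKummer1 (M := N) n U) :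
    ∃ u : LaurentSeries K, IsKummer1 (M := N) n u ∧ KummerEquiv1 N n U (coeffMap ι u) := by
  classical
  let g : X → LaurentSeries Ω := fun x =>
    if h : ∃ s, IsKummer1 (M := N) n s ∧ R s x then h.choose else 0
  refine exists_descent_hom ι hn hK (g '' T) (hT.image g) ?_ hU
  intro u hu
  obtain ⟨x, hxT, hx⟩ := h1 u hu
  have h : ∃ s, IsKummer1 (M := N) n s ∧ R s x := ⟨u, hu, hx⟩
  refine ⟨g x, ⟨x, hxT, rfl⟩, ?_⟩
  have hg : g x = h.choose := dif_pos h
  rw [hg]
  exact h2 _ _ x h.choose_spec.1 hu h.choose_spec.2 hx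

end Hom

section Qbar

variable (ι : AlgebraicClosure ℚ →+* ℂ) {N n : ℕ}

theorem isKummer_iota_iff [NeZero N] (hA : AlgRel ℂ N) {u : LaurentSeries (AlgebraicClosure ℚ)} :
    IsKummer1 (M := N) n (coeffMap ι u) ↔ IsKummer1 (M := N) n u :=
  ⟨isKummer_of_coeffMap_hom ι (finiteDimensional_FF_Qbar N hA), isKummer_coeffMap_hom ι⟩

theorem kummerEquiv_iota_iff (hn : 0 < n) {u u' : LaurentSeries (AlgebraicClosure ℚ)} :
    KummerEquiv1 N n (coeffMap ι u) (coeffMap ι u') ↔ KummerEquiv1 N n u u' :=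
  kummerEquiv_coeffMap_hom_iff ι hn

theorem exists_descent_iota [NeZero N] (hA : AlgRel ℂ N) (hn : 0 < n)
    {X : Type*} (R : LaurentSeries ℂ → X → Prop) (T : Set X) (hT : T.Finite)
    (h1 : ∀ U, IsKummer1 (M := N) n U → ∃ x ∈ T, R U x)
    (h2 : ∀ U U' x, IsKummer1 (M := N) n U → IsKummer1 (M := N) n U' → R U x → R U' x →
      KummerEquiv1 N n U U')
    {U : LaurentSeries ℂ} (hU : IsKummer1 (M := N) n U) :
    ∃ u : LaurentSeries (AlgebraicClosure ℚ), IsKummer1 (M := N) n u ∧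
      KummerEquiv1 N n U (coeffMap ι u) :=
  exists_descent_of_rel ι hn (finiteDimensional_FF_Qbar N hA) R T hT h1 h2 hU

end Qbar

end Fermat.Agent.G1.C
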