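import Fermat.Agent.G1.C.Basic
import Fermat.Agent.GR.C.PlaceDown
import Fermat.Agent.S24.PlacesDedekind

/-! # G1-C (port of GR-C), piece DOWN: restriction of places -/

set_option autoImplicit false

noncomputable section

open ModularCurve AlgebraicCurve

namespace Fermat.Agent.G1.C

open Fermat.Agent.GR Fermat.Agent.GR.C

variable {k Ω : Type*} [Field k] [Field Ω] [Algebra k Ω] {N n : ℕ}

/-- (C3) -/
theorem isKummer_coeffMap_algebraMap {u : LaurentSeries k} (hu : IsKummer1 (M := N) n u) :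
    IsKummer1 (M := N) n (coeffMap (algebraMap k Ω) u) := by
  obtain ⟨h0, hmem, hord⟩ := hu
  refine ⟨(map_ne_zero _).2 h0, coeffMap_mem_FF N _ hmem, fun w => ?_⟩
  have h2 : (⟨coeffMap (algebraMap k Ω) u, coeffMap_mem_FF N _ hmem⟩ : FF1 Ω N) =
      bc N (algebraMap k Ω) (⟨u, hmem⟩ : FF1 k N) := rfl
  rw [h2]
  rcases exists_place_restrict (K := k) (K' := Ω) (bc N (algebraMap k Ω))
    (fun a => ⟨algebraMap k Ω a, bc_algebraMap N _ a⟩) w with h | ⟨v, e, h⟩
  · rw [h]; exact dvd_zero _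
  · rw [h]; exact (hord v).mul_left e

end Fermat.Agent.G1.C
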